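import Mathlib
import Fermat.Agent.LT.T1.Spec

set_option autoImplicit false

open IsDedekindDomain NumberField

noncomputable section

namespace Fermat.Agent.LT.T1.H638

open Fermat.Agent.LT.H556.A0 Fermat.Agent.LT.T1

variable (K : Type) [Field K] [NumberField K]

/-- The `v`-adic norm is `1` exactly when the valuation is `1`. -/
theorem norm_eq_one_iff_valued638 (v : HeightOneSpectrum (𝓞 K)) (x : v.adicCompletion K) :
    ‖x‖ = 1 ↔ Valued.v x = 1 := by
  rw [NumberField.FinitePlace.norm_def]
  have h1 : (Ideal.absNorm v.asIdeal : NNReal) ≠ 1 :=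
    (NumberField.HeightOneSpectrum.one_lt_absNorm_nnreal v).ne'
  rw [← WithZeroMulInt.toNNReal_eq_one_iff (Valued.v x)
    (NumberField.HeightOneSpectrum.absNorm_ne_zero v) h1]
  norm_cast

/-- Projection of the adele ring to the finite adeles, as a ring homomorphism. -/
def finHom638 : Adl K →+* FiniteAdeleRing (𝓞 K) K :=
  RingHom.snd (InfiniteAdeleRing K) (FiniteAdeleRing (𝓞 K) K)

/-- Projection of the adele ring to the infinite adeles, as a ring homomorphism. -/
def infHom638 : Adl K →+* InfiniteAdeleRing K :=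
  RingHom.fst (InfiniteAdeleRing K) (FiniteAdeleRing (𝓞 K) K)

theorem finHom638_apply (x : Adl K) : finHom638 K x = x.2 := rfl
theorem infHom638_apply (x : Adl K) : infHom638 K x = x.1 := rfl

theorem continuous_finHom638 : Continuous (finHom638 K) := by
  show Continuous (fun x : InfiniteAdeleRing K × FiniteAdeleRing (𝓞 K) K => x.2)
  exact continuous_snd

theorem continuous_infHom638 : Continuous (infHom638 K) := by
  show Continuous (fun x : InfiniteAdeleRing K × FiniteAdeleRing (𝓞 K) K => x.1)
  exact continuous_fst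

theorem isUnit_snd638 (x : (Adl K)ˣ) : IsUnit (x : Adl K).2 :=
  x.isUnit.map (finHom638 K)

theorem isUnit_fst638 (x : (Adl K)ˣ) : IsUnit (x : Adl K).1 :=
  x.isUnit.map (infHom638 K)

theorem snd_ne_zero638 (x : (Adl K)ˣ) (v : HeightOneSpectrum (𝓞 K)) : (x : Adl K).2 v ≠ 0 :=
  (FiniteAdeleRing.isUnit_iff.1 (isUnit_snd638 K x)).1 v

theorem fst_ne_zero638 (x : (Adl K)ˣ) (w : InfinitePlace K) : (x : Adl K).1 w ≠ 0 := by
  have h := isUnit_fst638 K x
  have h2 : IsUnit ((x : Adl K).1 w) := (Pi.isUnit_iff.1 h) w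
  exact h2.ne_zero

theorem eventually_valued_eq_one638 (x : (Adl K)ˣ) :
    ∀ᶠ v in Filter.cofinite, Valued.v ((x : Adl K).2 v) = 1 :=
  (FiniteAdeleRing.isUnit_iff.1 (isUnit_snd638 K x)).2

/-- For an idele, the local norms at the finite places are almost all `1`. -/
theorem hasFiniteMulSupport_norm638 (x : (Adl K)ˣ) :
    Function.HasFiniteMulSupport fun v : HeightOneSpectrum (𝓞 K) => ‖(x : Adl K).2 v‖ := by
  have h := eventually_valued_eq_one638 K x
  rw [Filter.eventually_cofinite] at h
  refine h.subset ?_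
  intro v hv
  simp only [Function.mem_mulSupport] at hv
  show ¬ (Valued.v ((x : Adl K).2 v) = 1)
  intro h1
  exact hv ((norm_eq_one_iff_valued638 K v _).2 h1)

/-- A `finprod` of positive reals is positive. -/
theorem finprod_pos638 {ι : Type*} {f : ι → ℝ} (hf : ∀ i, 0 < f i) : 0 < ∏ᶠ i, f i := by
  by_cases h : (Function.mulSupport f).Finite
  · rw [finprod_eq_prod_of_mulSupport_subset f (s := h.toFinset) (by simp)]
    exact Finset.prod_pos fun i _ => hf i
  · rw [finprod_of_infinite_mulSupport h]
    exact one_pos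

/-- Positivity of the idele norm. -/
theorem adNorm_pos638 (x : (Adl K)ˣ) : 0 < adNorm K (x : Adl K) := by
  unfold adNorm
  apply mul_pos
  · apply Finset.prod_pos
    intro w _
    exact pow_pos (norm_pos_iff.2 (fst_ne_zero638 K x w)) _
  · exact finprod_pos638 (fun v => norm_pos_iff.2 (snd_ne_zero638 K x v))

/-- Multiplicativity of the idele norm. -/
theorem adNorm_mul638 (x y : (Adl K)ˣ) :
    adNorm K ((x * y : (Adl K)ˣ) : Adl K) = adNorm K (x : Adl K) * adNorm K (y : Adl K) := by
  unfold adNorm
  have h1 : ∀ w : InfinitePlace K, ‖((x * y : (Adl K)ˣ) : Adl K).1 w‖ ^ w.mult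
      = ‖(x : Adl K).1 w‖ ^ w.mult * ‖(y : Adl K).1 w‖ ^ w.mult := by
    intro w
    rw [← mul_pow, ← norm_mul]
    rfl
  have h2 : ∀ v : HeightOneSpectrum (𝓞 K), ‖((x * y : (Adl K)ˣ) : Adl K).2 v‖
      = ‖(x : Adl K).2 v‖ * ‖(y : Adl K).2 v‖ := by
    intro v
    rw [← norm_mul]
    rfl
  simp only [h1, h2]
  rw [Finset.prod_mul_distrib,
    finprod_mul_distrib (hasFiniteMulSupport_norm638 K x) (hasFiniteMulSupport_norm638 K y)]
  ring

/-- The product formula: principal ideles have norm `1`. -/
theorem adNorm_ratUnit638 (ξ : Kˣ) : adNorm K (ratUnit K ξ : Adl K) = 1 := by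
  unfold adNorm
  have hξ : (ξ : K) ≠ 0 := ξ.ne_zero
  have h1 : ∀ w : InfinitePlace K, ‖((ratUnit K ξ : (Adl K)ˣ) : Adl K).1 w‖ = w (ξ : K) := by
    intro w
    exact InfinitePlace.Completion.norm_coe w ((WithAbs.equiv w.1).symm (ξ : K))
  have h2 : ∀ v : HeightOneSpectrum (𝓞 K), ‖((ratUnit K ξ : (Adl K)ˣ) : Adl K).2 v‖
      = (FinitePlace.equivHeightOneSpectrum.symm v) (ξ : K) := by
    intro v; rfl
  simp only [h1, h2]
  rw [finprod_comp_equiv FinitePlace.equivHeightOneSpectrum.symm
    (f := fun w : FinitePlace K => w (ξ : K))]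
  exact prod_abs_eq_one hξ

/-- The set of finite adeles that are integral outside `S` is open. -/
theorem isOpen_integral_outside638 (S : Set (HeightOneSpectrum (𝓞 K))) :
    IsOpen {f : FiniteAdeleRing (𝓞 K) K | ∀ v, v ∉ S → f v ∈ v.adicCompletionIntegers K} :=
  RestrictedProduct.isOpen_forall_imp_mem
    (R := fun v : HeightOneSpectrum (𝓞 K) => v.adicCompletion K)
    (A := fun v => (v.adicCompletionIntegers K : Set (v.adicCompletion K)))
    (fun _ => Valued.isOpen_valuationSubring _) (p := fun v => v ∉ S)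

/-- Two integral elements with product `1` have valuation `1`. -/
theorem valued_eq_one_of_mul_eq_one638 (v : HeightOneSpectrum (𝓞 K)) (a b : v.adicCompletion K)
    (hab : a * b = 1) (ha : Valued.v a ≤ 1) (hb : Valued.v b ≤ 1) : Valued.v a = 1 := by
  have h : Valued.v a * Valued.v b = 1 := by rw [← map_mul, hab, map_one]
  apply le_antisymm ha
  by_contra hlt
  have hlt' : Valued.v a < 1 := lt_of_le_of_ne ha (fun h1 => hlt h1.ge)
  have : Valued.v a * Valued.v b < 1 := by
    calc Valued.v a * Valued.v b ≤ Valued.v a * 1 := mul_le_mul' le_rfl hb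
      _ = Valued.v a := mul_one _
      _ < 1 := hlt'
  exact this.ne h

theorem snd_mul_inv638 (x : (Adl K)ˣ) (v : HeightOneSpectrum (𝓞 K)) :
    (x : Adl K).2 v * ((x⁻¹ : (Adl K)ˣ) : Adl K).2 v = 1 := by
  have h : (x : Adl K) * ((x⁻¹ : (Adl K)ˣ) : Adl K) = 1 := x.mul_inv
  have h2 := congrArg (fun y : Adl K => y.2 v) h
  exact h2

/-- Continuity of the idele norm. -/
theorem continuous_adNorm638 : Continuous fun x : (Adl K)ˣ => adNorm K (x : Adl K) := by
  unfold adNorm
  apply Continuous.mul
  · -- infinite part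
    apply continuous_finsetProd
    intro w _
    apply Continuous.pow
    apply continuous_norm.comp
    exact (continuous_apply w).comp ((continuous_infHom638 K).comp Units.continuous_val)
  · -- finite part
    rw [continuous_iff_continuousAt]
    intro x₀
    set S : Set (HeightOneSpectrum (𝓞 K)) := {v | ¬ Valued.v ((x₀ : Adl K).2 v) = 1} with hS
    have hSfin : S.Finite := by
      have := eventually_valued_eq_one638 K x₀
      rwa [Filter.eventually_cofinite] at this
    let O : Set (FiniteAdeleRing (𝓞 K) K) :=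
      {f | ∀ v, v ∉ S → f v ∈ v.adicCompletionIntegers K}
    have hO : IsOpen O := isOpen_integral_outside638 K S
    let U : Set (Adl K)ˣ := {x | (x : Adl K).2 ∈ O ∧ ((x⁻¹ : (Adl K)ˣ) : Adl K).2 ∈ O}
    have hU : IsOpen U := by
      apply IsOpen.inter
      · exact hO.preimage ((continuous_finHom638 K).comp Units.continuous_val)
      · exact hO.preimage ((continuous_finHom638 K).comp Units.continuous_coe_inv)
    have hx₀ : x₀ ∈ U := by
      constructor
      · intro v hv
        have h1 : Valued.v ((x₀ : Adl K).2 v) = 1 := not_not.1 hv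
        rw [HeightOneSpectrum.mem_adicCompletionIntegers]
        exact h1.le
      · intro v hv
        have h1 : Valued.v ((x₀ : Adl K).2 v) = 1 := not_not.1 hv
        have h2 := snd_mul_inv638 K x₀ v
        have h3 : Valued.v ((x₀ : Adl K).2 v) * Valued.v (((x₀⁻¹ : (Adl K)ˣ) : Adl K).2 v) = 1 := by
          rw [← map_mul, h2, map_one]
        rw [h1, one_mul] at h3
        rw [HeightOneSpectrum.mem_adicCompletionIntegers]
        exact h3.le
    have hloc : ∀ x ∈ U, ∏ᶠ v, ‖(x : Adl K).2 v‖ = ∏ v ∈ hSfin.toFinset, ‖(x : Adl K).2 v‖ := by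
      intro x hx
      apply finprod_eq_prod_of_mulSupport_subset
      intro v hv
      simp only [Function.mem_mulSupport] at hv
      by_contra hvS
      have hvS' : v ∉ S := by simpa using hvS
      apply hv
      rw [norm_eq_one_iff_valued638]
      have h1 := hx.1 v hvS'
      have h2 := hx.2 v hvS'
      rw [HeightOneSpectrum.mem_adicCompletionIntegers] at h1 h2
      exact valued_eq_one_of_mul_eq_one638 K v _ _ (snd_mul_inv638 K x v) h1 h2
    have hcont : Continuous fun x : (Adl K)ˣ => ∏ v ∈ hSfin.toFinset, ‖(x : Adl K).2 v‖ := by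
      apply continuous_finsetProd
      intro v _
      apply continuous_norm.comp
      exact (RestrictedProduct.continuous_eval v).comp
        ((continuous_finHom638 K).comp Units.continuous_val)
    refine hcont.continuousAt.congr ?_
    filter_upwards [hU.mem_nhds hx₀] with x hx
    exact (hloc x hx).symm

/-- **T1.05 LeafAdNorm**: the idele norm is positive, multiplicative, trivial on principal
ideles (product formula) and continuous. -/
theorem leafAdNorm638 : Fermat.Agent.LT.T1.LeafAdNorm K :=
  ⟨adNorm_pos638 K, adNorm_mul638 K, adNorm_ratUnit638 K, continuous_adNorm638 K⟩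

end Fermat.Agent.LT.T1.H638

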